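/-
Program TT (S33), engine split, part 1 (helper13, prefix `tte`): the two Khuri-Makdisi operations on
SUBSPACES OF COORDINATE SPACES over a field, with a multiplication table `c` - no function field, no
divisors.

* `tteMul c U U'`   : the span of the products `μ(v, w)`, `v ∈ U`, `w ∈ U'`;
* `tteColon c C B`  : `{v | μ(v, B) ⊆ C}`;
* `tte_range_prod`  : the range of the product matrix `fffmProd` is `tteMul` of the ranges;
* `tte_ker_colon`   : the kernel of the colon matrix `fffmColon` is `tteColon (ker Q) (range N')`.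
-/
import Mathlib
import Fermat.Agent.FF.Fam.Coord

set_option autoImplicit false
set_option linter.unusedSectionVars false
set_option linter.unusedVariables false

noncomputable section

namespace Fermat.Agent.TT

open Fermat.Agent.FF Module Matrix

section Sub

variable {K : Type*} [Field K] {ι₁ ι₂ ι₃ : Type*} [Fintype ι₁] [Fintype ι₂] [Fintype ι₃]
  {σ τ : Type*} [Fintype σ] [Fintype τ]

/-- product of two coordinate subspaces -/
def tteMul (c : ι₁ → ι₂ → ι₃ → K) (U : Submodule K (ι₁ → K)) (U' : Submodule K (ι₂ → K)) :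
    Submodule K (ι₃ → K) :=
  Submodule.map₂ (fffmMuL c) U U'

theorem tte_mu_mem_mul (c : ι₁ → ι₂ → ι₃ → K) {U : Submodule K (ι₁ → K)}
    {U' : Submodule K (ι₂ → K)} {v : ι₁ → K} {w : ι₂ → K} (hv : v ∈ U) (hw : w ∈ U') :
    fffmMu c v w ∈ tteMul c U U' :=
  Submodule.apply_mem_map₂ (fffmMuL c) hv hw

theorem tteMul_le (c : ι₁ → ι₂ → ι₃ → K) {U : Submodule K (ι₁ → K)}
    {U' : Submodule K (ι₂ → K)} {T : Submodule K (ι₃ → K)}
    (h : ∀ v ∈ U, ∀ w ∈ U', fffmMu c v w ∈ T) : tteMul c U U' ≤ T :=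
  Submodule.map₂_le.mpr h

theorem tteMul_mono (c : ι₁ → ι₂ → ι₃ → K) {U V : Submodule K (ι₁ → K)}
    {U' V' : Submodule K (ι₂ → K)} (h : U ≤ V) (h' : U' ≤ V') :
    tteMul c U U' ≤ tteMul c V V' :=
  Submodule.map₂_le_map₂ h h'

/-- colon of two coordinate subspaces -/
def tteColon (c : ι₁ → ι₂ → ι₃ → K) (C : Submodule K (ι₃ → K)) (B : Submodule K (ι₂ → K)) :
    Submodule K (ι₁ → K) where
  carrier := {v | ∀ w ∈ B, fffmMu c v w ∈ C}
  add_mem' := by
    intro v v' hv hv' w hw
    rw [fffmMu_add_left]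
    exact C.add_mem (hv w hw) (hv' w hw)
  zero_mem' := by
    intro w hw
    have : fffmMu c (0 : ι₁ → K) w = 0 := by
      have := fffmMu_smul_left c (0 : K) (0 : ι₁ → K) w
      rwa [zero_smul, zero_smul] at this
    rw [this]
    exact C.zero_mem
  smul_mem' := by
    intro r v hv w hw
    rw [fffmMu_smul_left]
    exact C.smul_mem r (hv w hw)

theorem tte_mem_colon (c : ι₁ → ι₂ → ι₃ → K) (C : Submodule K (ι₃ → K))
    (B : Submodule K (ι₂ → K)) (v : ι₁ → K) :
    v ∈ tteColon c C B ↔ ∀ w ∈ B, fffmMu c v w ∈ C := Iff.rfl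

/-- the range of the product matrix -/
theorem tte_range_prod (c : ι₁ → ι₂ → ι₃ → K) (N : Matrix ι₁ σ K) (N' : Matrix ι₂ τ K) :
    LinearMap.range (fffmProd c N N').mulVecLin =
      tteMul c (LinearMap.range N.mulVecLin) (LinearMap.range N'.mulVecLin) := by
  rw [Matrix.range_mulVecLin, Matrix.range_mulVecLin, Matrix.range_mulVecLin, tteMul,
    Submodule.map₂_span_span]
  congr 1
  ext f
  constructor
  · rintro ⟨ab, rfl⟩
    exact ⟨_, ⟨ab.1, rfl⟩, _, ⟨ab.2, rfl⟩, by rw [fffmProd_col]; rfl⟩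
  · rintro ⟨_, ⟨a, rfl⟩, _, ⟨b, rfl⟩, rfl⟩
    exact ⟨(a, b), by rw [fffmProd_col]; rfl⟩

/-- the kernel of the colon matrix -/
theorem tte_ker_colon (c : ι₁ → ι₂ → ι₃ → K) (Q : Matrix ι₃ ι₃ K) (N' : Matrix ι₂ τ K) :
    LinearMap.ker (fffmColon c Q N').mulVecLin =
      tteColon c (LinearMap.ker Q.mulVecLin) (LinearMap.range N'.mulVecLin) := by
  ext v
  rw [fffm_mem_ker_colon, tte_mem_colon]
  constructor
  · intro h w hw
    have hle : LinearMap.range N'.mulVecLin ≤
        (LinearMap.ker Q.mulVecLin).comap (fffmMuL c v) := by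
      rw [Matrix.range_mulVecLin, Submodule.span_le]
      rintro _ ⟨b, rfl⟩
      exact h b
    exact hle hw
  · intro h b
    refine h _ ?_
    rw [Matrix.range_mulVecLin]
    exact Submodule.subset_span ⟨b, rfl⟩

end Sub

end Fermat.Agent.TT
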