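/-
Program TT (S33), engine split, part 2 (helper13, prefix `tte`): the two operations on FAMILIES over a
ring `R` with a local closed point `x₀` and a jointly injective family of points, GEOMETRY-FREE:
the fibres are subspaces of the coordinate spaces `ι i → L x`, the only hypotheses are DIMENSIONS.

* `tte_fam_mul`   : if the fibrewise products `tteMul (range N_x) (range N'_x)` have the same dimension
                    `r` at every point, there is an idempotent `P` over `R` with these fibres;
* `tte_fam_colon` : if the fibrewise colons `tteColon (range PU_x) (range N'_x)` have dimension `d₀` at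
                    the closed point and `≥ d₀` everywhere, there is an idempotent `P` over `R` with
                    these fibres, and all of them have dimension `d₀`.
-/
import Mathlib
import Fermat.Agent.FF.Fam.Ops
import Fermat.Agent.TT.Eng.Sub

set_option autoImplicit false
set_option linter.unusedSectionVars false
set_option linter.unusedVariables false

noncomputable section

namespace Fermat.Agent.TT

open Fermat.Agent.FF Module Matrix

section Fam

variable {ι₁ ι₂ ι₃ : Type*} [Fintype ι₁] [Fintype ι₂] [Fintype ι₃]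
  [DecidableEq ι₁] [DecidableEq ι₂] [DecidableEq ι₃]
  {R : Type*} [CommRing R] (c : ι₁ → ι₂ → ι₃ → R)
  {Pt : Type*} {L : Pt → Type*} [∀ x, Field (L x)]
  (pt : ∀ x, R →+* L x) (hpt : ∀ b : R, (∀ x, pt x b = 0) → b = 0) (x₀ : Pt)
  [IsLocalHom (pt x₀)]

/-- the table at the point `x` -/
def tteTab (x : Pt) : ι₁ → ι₂ → ι₃ → L x := fun a b t => pt x (c a b t)

/-- the fibre of a matrix family at the point `x` -/
def tteFibre {m n : Type*} [Fintype m] [Fintype n] (N : Matrix m n R) (x : Pt) :
    Submodule (L x) (m → L x) :=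
  LinearMap.range (N.map (pt x)).mulVecLin

include hpt x₀

/-- **product of families** (geometry-free) -/
theorem tte_fam_mul {σ τ : Type*} [Fintype σ] [Fintype τ] [DecidableEq σ] [DecidableEq τ]
    (N : Matrix ι₁ σ R) (N' : Matrix ι₂ τ R) (r : ℕ)
    (hr : ∀ x, finrank (L x) (tteMul (tteTab c pt x) (tteFibre pt N x) (tteFibre pt N' x)) = r) :
    ∃ P : Matrix ι₃ ι₃ R, P * P = P ∧
      ∀ x, tteFibre pt P x = tteMul (tteTab c pt x) (tteFibre pt N x) (tteFibre pt N' x) := by
  set M := fffmProd c N N' with hM
  have hMx : ∀ x, LinearMap.range (M.map (pt x)).mulVecLin =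
      tteMul (tteTab c pt x) (tteFibre pt N x) (tteFibre pt N' x) := by
    intro x
    rw [hM, fffmProd_map, tte_range_prod]
    rfl
  have hrank : ∀ x, (M.map (pt x)).rank = r := by
    intro x
    rw [Matrix.rank, hMx x]
    exact hr x
  obtain ⟨f, g', hf, hg', hdata⟩ := ffcr_exists_data (pt x₀) pt hpt M r (hrank x₀)
    (fun x => (hrank x).le)
  refine ⟨ffcrR M f g', ffcr_R_idem hdata.unit, fun x => ?_⟩
  rw [tteFibre, fffm_range_R_map (pt x) hdata]
  exact hMx x

/-- **colon of families** (geometry-free): `PU` an idempotent family (level `ι₃`), `N'` a family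
(level `ι₂`); the fibrewise colons form a family (level `ι₁`) as soon as the dimension at the closed
point is the minimum. -/
theorem tte_fam_colon {τ : Type*} [Fintype τ] [DecidableEq τ]
    (PU : Matrix ι₃ ι₃ R) (hPU : PU * PU = PU) (N' : Matrix ι₂ τ R) (d₀ : ℕ)
    (h0 : finrank (L x₀) (tteColon (tteTab c pt x₀) (tteFibre pt PU x₀) (tteFibre pt N' x₀)) = d₀)
    (hge : ∀ x, d₀ ≤
      finrank (L x) (tteColon (tteTab c pt x) (tteFibre pt PU x) (tteFibre pt N' x))) :
    ∃ P : Matrix ι₁ ι₁ R, P * P = P ∧
      (∀ x, tteFibre pt P x = tteColon (tteTab c pt x) (tteFibre pt PU x) (tteFibre pt N' x)) ∧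
      ∀ x, finrank (L x)
        (tteColon (tteTab c pt x) (tteFibre pt PU x) (tteFibre pt N' x)) = d₀ := by
  set N := fffmColon c (1 - PU) N' with hNdef
  have hNx : ∀ x, LinearMap.ker (N.map (pt x)).mulVecLin =
      tteColon (tteTab c pt x) (tteFibre pt PU x) (tteFibre pt N' x) := by
    intro x
    rw [hNdef, fffmColon_map, fffm_map_one_sub, tte_ker_colon,
      fffm_ker_one_sub _ (fffm_map_idem (pt x) hPU)]
    rfl
  have hrn : ∀ x, (N.map (pt x)).rank +
      finrank (L x) (LinearMap.ker (N.map (pt x)).mulVecLin) = Fintype.card ι₁ :=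
    fun x => fffm_rank_add_finrank_ker _
  have hd₀ : d₀ ≤ Fintype.card ι₁ := by
    have := hrn x₀
    rw [hNx x₀, h0] at this
    omega
  obtain ⟨f, g', hf, hg', hdata⟩ := ffcr_exists_data (pt x₀) pt hpt N (Fintype.card ι₁ - d₀)
    (by have := hrn x₀; rw [hNx x₀, h0] at this; omega)
    (fun x => by have := hrn x; rw [hNx x] at this; have := hge x; omega)
  refine ⟨ffcrK N f g', ffcr_K_idem hdata.unit, fun x => ?_, fun x => ?_⟩
  · rw [tteFibre, fffm_range_K_map (pt x) hdata]
    exact hNx x
  · have h1 := fffm_card_le_rank_map (pt x) hdata.unit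
    rw [Fintype.card_fin] at h1
    have h2 := hrn x
    rw [hNx x] at h2
    have h3 := hge x
    omega

end Fam

end Fermat.Agent.TT
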