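/-
Program TT (S33), engine split, part 3 (helper13, prefix `tte`): KHURI-MAKDISI ADDITION AS A SCRIPT ON
COORDINATE SUBSPACES, and its family version - GEOMETRY-FREE.

Over a field `K` with multiplication tables `c i j k` and five input subspaces
`U_D, U_D' ⊂ K^{ι 1}`, `U_E, U_ED ⊂ K^{ι 2}`, `U_ED3 ⊂ K^{ι 3}` the script is
 `S1 = U_D·U_D'` (level 2), `S2 = S1·U_E` (4), `S3 = (S2 : ⊤₂)` (2), `S4 = S3·⊤₃` (5),
 `S5 = (S4 : S2)` (1), `S6 = S5·U_ED` (3), `S7 = (S6 : ⊤₁)` (2), `S8 = S5·U_ED3` (4),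
 `S9 = S7·⊤₃` (5), `S10 = (S9 : S8)` (1).
(On a curve: `U_D = L(𝔡-D)`, …, `S3 = L(2𝔡-D-D'-E) = K·s`, `S5 = L(𝔡-R₁)`, `S7 = K·s'`,
`S10 = L(𝔡-D'')`, `D'' ∼ D + D' - D₀`.)

`tte_add` : over a ring `R` with a local closed point and jointly injective points, if the DIMENSIONS
of the ten fibrewise subspaces are constant (for the three colons: the closed fibre has the minimum),
there is an idempotent `P` of level 1 over `R` with fibre `S10` at EVERY point, and `S3`, `S7` are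
lines at every point.  The fibres may be anything (function fields over the generic points, a
reducible curve over the closed point): only these dimensions are consumed.
-/
import Mathlib
import Fermat.Agent.TT.Eng.Fam

set_option autoImplicit false
set_option linter.unusedSectionVars false
set_option linter.unusedVariables false

noncomputable section

namespace Fermat.Agent.TT

open Fermat.Agent.FF Module Matrix

section Script

variable {ι : ℕ → Type} [∀ i, Fintype (ι i)] {K : Type*} [Field K]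

/-- the five input subspaces of the addition script -/
structure TteIn (ι : ℕ → Type) (K : Type*) [Field K] where
  UD : Submodule K (ι 1 → K)
  UD' : Submodule K (ι 1 → K)
  UE : Submodule K (ι 2 → K)
  UED : Submodule K (ι 2 → K)
  UED3 : Submodule K (ι 3 → K)

variable (c : ∀ i j k : ℕ, ι i → ι j → ι k → K) (I : TteIn ι K)

def tteS1 : Submodule K (ι 2 → K) := tteMul (c 1 1 2) I.UD I.UD'
def tteS2 : Submodule K (ι 4 → K) := tteMul (c 2 2 4) (tteS1 c I) I.UE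
def tteS3 : Submodule K (ι 2 → K) := tteColon (c 2 2 4) (tteS2 c I) ⊤
def tteS4 : Submodule K (ι 5 → K) := tteMul (c 2 3 5) (tteS3 c I) ⊤
def tteS5 : Submodule K (ι 1 → K) := tteColon (c 1 4 5) (tteS4 c I) (tteS2 c I)
def tteS6 : Submodule K (ι 3 → K) := tteMul (c 1 2 3) (tteS5 c I) I.UED
def tteS7 : Submodule K (ι 2 → K) := tteColon (c 2 1 3) (tteS6 c I) ⊤
def tteS8 : Submodule K (ι 4 → K) := tteMul (c 1 3 4) (tteS5 c I) I.UED3
def tteS9 : Submodule K (ι 5 → K) := tteMul (c 2 3 5) (tteS7 c I) ⊤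
def tteS10 : Submodule K (ι 1 → K) := tteColon (c 1 4 5) (tteS9 c I) (tteS8 c I)

end Script

section Add

variable {ι : ℕ → Type} [∀ i, Fintype (ι i)] [∀ i, DecidableEq (ι i)]
  {R : Type*} [CommRing R] (cR : ∀ i j k : ℕ, ι i → ι j → ι k → R)
  {Pt : Type*} {L : Pt → Type*} [∀ x, Field (L x)]
  (pt : ∀ x, R →+* L x) (hpt : ∀ b : R, (∀ x, pt x b = 0) → b = 0) (x₀ : Pt)
  [IsLocalHom (pt x₀)]

/-- the tables at the point `x` -/
def tteTabs (x : Pt) : ∀ i j k : ℕ, ι i → ι j → ι k → L x :=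
  fun i j k p q s => pt x (cR i j k p q s)

theorem tteTab_eq (i j k : ℕ) (x : Pt) : tteTab (cR i j k) pt x = tteTabs cR pt x i j k := rfl

theorem tteFibre_one (i : ℕ) (x : Pt) : tteFibre pt (1 : Matrix (ι i) (ι i) R) x = ⊤ := by
  rw [tteFibre, Matrix.map_one _ (pt x).map_zero (pt x).map_one, Matrix.mulVecLin_one,
    LinearMap.range_id]

variable {σ σ' σE σ2 σ3 : Type*} [Fintype σ] [Fintype σ'] [Fintype σE] [Fintype σ2] [Fintype σ3]
  [DecidableEq σ] [DecidableEq σ'] [DecidableEq σE] [DecidableEq σ2] [DecidableEq σ3]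
  (GD : Matrix (ι 1) σ R) (GD' : Matrix (ι 1) σ' R) (GE : Matrix (ι 2) σE R)
  (GED : Matrix (ι 2) σ2 R) (GED3 : Matrix (ι 3) σ3 R)

/-- the inputs of the script at the point `x` -/
def tteInAt (x : Pt) : TteIn ι (L x) where
  UD := tteFibre pt GD x
  UD' := tteFibre pt GD' x
  UE := tteFibre pt GE x
  UED := tteFibre pt GED x
  UED3 := tteFibre pt GED3 x

include hpt x₀

/-- **Khuri-Makdisi addition in a family, geometry-free.** -/
theorem tte_add (r1 r2 r4 r5 r6 r8 r9 r10 : ℕ)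
    (h1 : ∀ x, finrank (L x) (tteS1 (tteTabs cR pt x) (tteInAt pt GD GD' GE GED GED3 x)) = r1)
    (h2 : ∀ x, finrank (L x) (tteS2 (tteTabs cR pt x) (tteInAt pt GD GD' GE GED GED3 x)) = r2)
    (h3₀ : finrank (L x₀) (tteS3 (tteTabs cR pt x₀) (tteInAt pt GD GD' GE GED GED3 x₀)) = 1)
    (h3 : ∀ x, 1 ≤ finrank (L x) (tteS3 (tteTabs cR pt x) (tteInAt pt GD GD' GE GED GED3 x)))
    (h4 : ∀ x, finrank (L x) (tteS3 (tteTabs cR pt x) (tteInAt pt GD GD' GE GED GED3 x)) = 1 →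
      finrank (L x) (tteS4 (tteTabs cR pt x) (tteInAt pt GD GD' GE GED GED3 x)) = r4)
    (h5₀ : finrank (L x₀) (tteS5 (tteTabs cR pt x₀) (tteInAt pt GD GD' GE GED GED3 x₀)) = r5)
    (h5 : ∀ x, finrank (L x) (tteS3 (tteTabs cR pt x) (tteInAt pt GD GD' GE GED GED3 x)) = 1 →
      r5 ≤ finrank (L x) (tteS5 (tteTabs cR pt x) (tteInAt pt GD GD' GE GED GED3 x)))
    (h6 : ∀ x, finrank (L x) (tteS3 (tteTabs cR pt x) (tteInAt pt GD GD' GE GED GED3 x)) = 1 →
      finrank (L x) (tteS6 (tteTabs cR pt x) (tteInAt pt GD GD' GE GED GED3 x)) = r6)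
    (h7₀ : finrank (L x₀) (tteS7 (tteTabs cR pt x₀) (tteInAt pt GD GD' GE GED GED3 x₀)) = 1)
    (h7 : ∀ x, finrank (L x) (tteS3 (tteTabs cR pt x) (tteInAt pt GD GD' GE GED GED3 x)) = 1 →
      1 ≤ finrank (L x) (tteS7 (tteTabs cR pt x) (tteInAt pt GD GD' GE GED GED3 x)))
    (h8 : ∀ x, finrank (L x) (tteS3 (tteTabs cR pt x) (tteInAt pt GD GD' GE GED GED3 x)) = 1 →
      finrank (L x) (tteS8 (tteTabs cR pt x) (tteInAt pt GD GD' GE GED GED3 x)) = r8)
    (h9 : ∀ x, finrank (L x) (tteS3 (tteTabs cR pt x) (tteInAt pt GD GD' GE GED GED3 x)) = 1 →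
      finrank (L x) (tteS7 (tteTabs cR pt x) (tteInAt pt GD GD' GE GED GED3 x)) = 1 →
      finrank (L x) (tteS9 (tteTabs cR pt x) (tteInAt pt GD GD' GE GED GED3 x)) = r9)
    (h10₀ : finrank (L x₀) (tteS10 (tteTabs cR pt x₀) (tteInAt pt GD GD' GE GED GED3 x₀)) = r10)
    (h10 : ∀ x, finrank (L x) (tteS3 (tteTabs cR pt x) (tteInAt pt GD GD' GE GED GED3 x)) = 1 →
      finrank (L x) (tteS7 (tteTabs cR pt x) (tteInAt pt GD GD' GE GED GED3 x)) = 1 →
      r10 ≤ finrank (L x) (tteS10 (tteTabs cR pt x) (tteInAt pt GD GD' GE GED GED3 x))) :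
    ∃ P : Matrix (ι 1) (ι 1) R, P * P = P ∧
      ∀ x, tteFibre pt P x = tteS10 (tteTabs cR pt x) (tteInAt pt GD GD' GE GED GED3 x) ∧
        finrank (L x) (tteS3 (tteTabs cR pt x) (tteInAt pt GD GD' GE GED GED3 x)) = 1 ∧
        finrank (L x) (tteS7 (tteTabs cR pt x) (tteInAt pt GD GD' GE GED GED3 x)) = 1 := by
  classical
  -- Step 1
  obtain ⟨P1, hP1, hF1⟩ := tte_fam_mul (cR 1 1 2) pt hpt x₀ GD GD' r1 h1
  have hF1' : ∀ x, tteFibre pt P1 x =
      tteS1 (tteTabs cR pt x) (tteInAt pt GD GD' GE GED GED3 x) := hF1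
  -- Step 2
  obtain ⟨P2, hP2, hF2⟩ := tte_fam_mul (cR 2 2 4) pt hpt x₀ P1 GE r2
    (fun x => by rw [hF1' x]; exact h2 x)
  have hF2' : ∀ x, tteFibre pt P2 x =
      tteS2 (tteTabs cR pt x) (tteInAt pt GD GD' GE GED GED3 x) := by
    intro x
    rw [hF2 x, hF1' x]
    rfl
  -- Step 3
  obtain ⟨P3, hP3, hF3, hd3⟩ := tte_fam_colon (cR 2 2 4) pt hpt x₀ P2 hP2
    (1 : Matrix (ι 2) (ι 2) R) 1
    (by rw [hF2' x₀, tteFibre_one]; exact h3₀)
    (fun x => by rw [hF2' x, tteFibre_one]; exact h3 x)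
  have hF3' : ∀ x, tteFibre pt P3 x =
      tteS3 (tteTabs cR pt x) (tteInAt pt GD GD' GE GED GED3 x) := by
    intro x
    rw [hF3 x, hF2' x, tteFibre_one]
    rfl
  have hd3' : ∀ x,
      finrank (L x) (tteS3 (tteTabs cR pt x) (tteInAt pt GD GD' GE GED GED3 x)) = 1 := by
    intro x
    have := hd3 x
    rwa [hF2' x, tteFibre_one] at this
  -- Step 4
  obtain ⟨P4, hP4, hF4⟩ := tte_fam_mul (cR 2 3 5) pt hpt x₀ P3 (1 : Matrix (ι 3) (ι 3) R) r4
    (fun x => by rw [hF3' x, tteFibre_one]; exact h4 x (hd3' x))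
  have hF4' : ∀ x, tteFibre pt P4 x =
      tteS4 (tteTabs cR pt x) (tteInAt pt GD GD' GE GED GED3 x) := by
    intro x
    rw [hF4 x, hF3' x, tteFibre_one]
    rfl
  -- Step 5
  obtain ⟨P5, hP5, hF5, -⟩ := tte_fam_colon (cR 1 4 5) pt hpt x₀ P4 hP4 P2 r5
    (by rw [hF4' x₀, hF2' x₀]; exact h5₀)
    (fun x => by rw [hF4' x, hF2' x]; exact h5 x (hd3' x))
  have hF5' : ∀ x, tteFibre pt P5 x =
      tteS5 (tteTabs cR pt x) (tteInAt pt GD GD' GE GED GED3 x) := by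
    intro x
    rw [hF5 x, hF4' x, hF2' x]
    rfl
  -- Step 6
  obtain ⟨P6, hP6, hF6⟩ := tte_fam_mul (cR 1 2 3) pt hpt x₀ P5 GED r6
    (fun x => by rw [hF5' x]; exact h6 x (hd3' x))
  have hF6' : ∀ x, tteFibre pt P6 x =
      tteS6 (tteTabs cR pt x) (tteInAt pt GD GD' GE GED GED3 x) := by
    intro x
    rw [hF6 x, hF5' x]
    rfl
  -- Step 7
  obtain ⟨P7, hP7, hF7, hd7⟩ := tte_fam_colon (cR 2 1 3) pt hpt x₀ P6 hP6
    (1 : Matrix (ι 1) (ι 1) R) 1
    (by rw [hF6' x₀, tteFibre_one]; exact h7₀)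
    (fun x => by rw [hF6' x, tteFibre_one]; exact h7 x (hd3' x))
  have hF7' : ∀ x, tteFibre pt P7 x =
      tteS7 (tteTabs cR pt x) (tteInAt pt GD GD' GE GED GED3 x) := by
    intro x
    rw [hF7 x, hF6' x, tteFibre_one]
    rfl
  have hd7' : ∀ x,
      finrank (L x) (tteS7 (tteTabs cR pt x) (tteInAt pt GD GD' GE GED GED3 x)) = 1 := by
    intro x
    have := hd7 x
    rwa [hF6' x, tteFibre_one] at this
  -- Step 8
  obtain ⟨P8, hP8, hF8⟩ := tte_fam_mul (cR 1 3 4) pt hpt x₀ P5 GED3 r8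
    (fun x => by rw [hF5' x]; exact h8 x (hd3' x))
  have hF8' : ∀ x, tteFibre pt P8 x =
      tteS8 (tteTabs cR pt x) (tteInAt pt GD GD' GE GED GED3 x) := by
    intro x
    rw [hF8 x, hF5' x]
    rfl
  -- Step 9
  obtain ⟨P9, hP9, hF9⟩ := tte_fam_mul (cR 2 3 5) pt hpt x₀ P7 (1 : Matrix (ι 3) (ι 3) R) r9
    (fun x => by rw [hF7' x, tteFibre_one]; exact h9 x (hd3' x) (hd7' x))
  have hF9' : ∀ x, tteFibre pt P9 x =
      tteS9 (tteTabs cR pt x) (tteInAt pt GD GD' GE GED GED3 x) := by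
    intro x
    rw [hF9 x, hF7' x, tteFibre_one]
    rfl
  -- Step 10
  obtain ⟨P10, hP10, hF10, -⟩ := tte_fam_colon (cR 1 4 5) pt hpt x₀ P9 hP9 P8 r10
    (by rw [hF9' x₀, hF8' x₀]; exact h10₀)
    (fun x => by rw [hF9' x, hF8' x]; exact h10 x (hd3' x) (hd7' x))
  refine ⟨P10, hP10, fun x => ⟨?_, hd3' x, hd7' x⟩⟩
  rw [hF10 x, hF9' x, hF8' x]
  rfl

end Add

end Fermat.Agent.TT
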