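/-
Program TT (S33), engine split, part 4 (helper13, prefix `tte`): THE SCRIPT ON A FUNCTION-FIELD FIBRE.

For one fibre `fib : FffmFib ι K F g c` (function field `F/K` with Riemann-Roch, level divisor `𝔡`,
bases of `L(i𝔡)`) the coordinate operations `tteMul`, `tteColon` compute products and colons of
Riemann-Roch spaces (`tte_reps_mul`, `tte_reps_mul_one`, `tte_reps_colon`), hence the addition script
of `Script.lean` computes Khuri-Makdisi's addition: `tte_fib_script` gives ALL the dimensions consumed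
by `tte_add` at such a fibre, and the identification `S10 = L(𝔡 - D'')`, `D'' ∼ D + D' - D₀`.
-/
import Mathlib
import Fermat.Agent.FF.Fam.Add
import Fermat.Agent.TT.Eng.Script

set_option autoImplicit false
set_option linter.unusedSectionVars false
set_option linter.unusedVariables false

noncomputable section

namespace Fermat.Agent.TT

open Fermat.Agent.FF AlgebraicCurve Module Fermat.Agent.V.RR Matrix

section Fib

variable {ι : ℕ → Type} [∀ i, Fintype (ι i)] {K F : Type*} [Field K] [Field F] [Algebra K F]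
  {g : ℕ} {c : ∀ i j k : ℕ, ι i → ι j → ι k → K} (fib : FffmFib ι K F g c)

/-- the coordinate subspace `U` of level `i` is `L(A)` -/
def TteRepS (i : ℕ) (U : Submodule K (ι i → K)) (A : Divisor K F) : Prop :=
  U.map (fib.real i) = riemannRochSpace A

theorem tteRepS_range {i : ℕ} {σ : Type*} [Fintype σ] (N : Matrix (ι i) σ K) (A : Divisor K F) :
    TteRepS fib i (LinearMap.range N.mulVecLin) A ↔ FffmRep fib i N A := Iff.rfl

theorem tte_reps_finrank {i : ℕ} (h1 : 1 ≤ i) (h5 : i ≤ 5) {U : Submodule K (ι i → K)}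
    {A : Divisor K F} (h : TteRepS fib i U A) :
    finrank K U = finrank K (riemannRochSpace A) := by
  rw [← h]
  exact (Submodule.equivMapOfInjective (fib.real i) (fib.real_injective h1 h5) _).finrank_eq

theorem tte_reps_eq {i : ℕ} (h1 : 1 ≤ i) (h5 : i ≤ 5) {U U' : Submodule K (ι i → K)}
    {A : Divisor K F} (h : TteRepS fib i U A) (h' : TteRepS fib i U' A) : U = U' :=
  Submodule.map_injective_of_injective (fib.real_injective h1 h5) (h.trans h'.symm)

theorem tte_reps_top {i : ℕ} (h1 : 1 ≤ i) (h5 : i ≤ 5) : TteRepS fib i ⊤ (i • fib.dd) := by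
  rw [TteRepS, Submodule.map_top, fib.range_real h1 h5]

/-- the realization of the coordinate product is the product of the realizations -/
theorem tte_map_mul {i j k : ℕ} (hk : k = i + j) (hi : 1 ≤ i) (hj : 1 ≤ j) (h5 : k ≤ 5)
    (U : Submodule K (ι i → K)) (U' : Submodule K (ι j → K)) :
    (tteMul (c i j k) U U').map (fib.real k) = U.map (fib.real i) * U'.map (fib.real j) := by
  apply le_antisymm
  · rw [Submodule.map_le_iff_le_comap]
    refine tteMul_le _ fun v hv w hw => ?_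
    rw [Submodule.mem_comap, fib.real_mu hk hi hj h5]
    exact Submodule.mul_mem_mul (Submodule.mem_map_of_mem hv) (Submodule.mem_map_of_mem hw)
  · rw [Submodule.mul_le]
    rintro _ ⟨v, hv, rfl⟩ _ ⟨w, hw, rfl⟩
    rw [← fib.real_mu hk hi hj h5]
    exact Submodule.mem_map_of_mem (tte_mu_mem_mul _ hv hw)

/-- **product step**: `L(A)·L(A') = L(A + A')` -/
theorem tte_reps_mul {i j k : ℕ} (hk : k = i + j) (hi : 1 ≤ i) (hj : 1 ≤ j) (h5 : k ≤ 5)
    {U : Submodule K (ι i → K)} {U' : Submodule K (ι j → K)} {A A' : Divisor K F}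
    (hU : TteRepS fib i U A) (hU' : TteRepS fib j U' A')
    (hA : 4 * (g : ℤ) ≤ Divisor.degree A) (hA' : 2 * (g : ℤ) ≤ Divisor.degree A') :
    TteRepS fib k (tteMul (c i j k) U U') (A + A') := by
  have := fib.inf
  rw [TteRepS, tte_map_mul fib hk hi hj h5, hU, hU', ffkm_mul_eq fib.RR fib.hdeg1 hA hA']

/-- **principal product step**: `s·L(Y) = L(Y - div s)` when `L(X) = K·s` -/
theorem tte_reps_mul_one {i j k : ℕ} (hk : k = i + j) (hi : 1 ≤ i) (hj : 1 ≤ j) (h5 : k ≤ 5)
    {U : Submodule K (ι i → K)} {U' : Submodule K (ι j → K)} {X Y : Divisor K F}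
    (hU : TteRepS fib i U X) {s : F} (hs : s ≠ 0)
    (hX : riemannRochSpace X = Submodule.span K {s}) (hU' : TteRepS fib j U' Y)
    {Ds : Divisor K F} (hDs : ∀ v : Place K F, Ds v = v.ord s) :
    TteRepS fib k (tteMul (c i j k) U U') (Y - Ds) := by
  rw [TteRepS, tte_map_mul fib hk hi hj h5, hU, hU', hX, fffm_span_singleton_mul,
    ffkm_map_mul_eq hs hDs Y]

/-- **colon step**: `(L(C) : L(B)) ∩ L(i𝔡) = L(i𝔡 ⊓ (C - B))` -/
theorem tte_reps_colon {i j k : ℕ} (hk : k = i + j) (hi : 1 ≤ i) (hj : 1 ≤ j) (h5 : k ≤ 5)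
    {Cs : Submodule K (ι k → K)} {Cd : Divisor K F} (hC : TteRepS fib k Cs Cd)
    {Bs : Submodule K (ι j → K)} {Bd : Divisor K F} (hB' : TteRepS fib j Bs Bd)
    (hB : 2 * (g : ℤ) ≤ Divisor.degree Bd) :
    TteRepS fib i (tteColon (c i j k) Cs Bs) ((i • fib.dd) ⊓ (Cd - Bd)) := by
  have := fib.inf
  have hk1 : 1 ≤ k := by omega
  have hi5 : i ≤ 5 := by omega
  have hmemC : ∀ w : ι k → K, w ∈ Cs ↔ fib.real k w ∈ riemannRochSpace Cd := by
    intro w
    rw [← hC]
    constructor
    · intro hw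
      exact ⟨w, hw, rfl⟩
    · rintro ⟨w', hw', h⟩
      rwa [← fib.real_injective hk1 h5 h]
  rw [TteRepS, ← ffkm_inf, ← fib.range_real hi hi5]
  ext f
  rw [Submodule.mem_map, Submodule.mem_inf]
  constructor
  · rintro ⟨v, hv, rfl⟩
    refine ⟨LinearMap.mem_range_self _ v, ?_⟩
    rw [← ffkm_colon fib.RR fib.hdeg1 hB Cd]
    intro b hb
    rw [← hB'] at hb
    obtain ⟨u, hu, rfl⟩ := hb
    rw [← fib.real_mu hk hi hj h5]
    exact (hmemC _).mp (hv u hu)
  · rintro ⟨⟨v, rfl⟩, hf⟩
    refine ⟨v, ?_, rfl⟩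
    intro w hw
    rw [hmemC, fib.real_mu hk hi hj h5]
    refine (ffkm_colon fib.RR fib.hdeg1 hB Cd _).mpr hf _ ?_
    rw [← hB']
    exact ⟨w, hw, rfl⟩

end Fib

end Fermat.Agent.TT
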