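/-
Program TT (S33), engine split, part 5 (helper13, prefix `tte`): THE ADDITION SCRIPT ON A
FUNCTION-FIELD FIBRE.

`TteFibData fib I δ D D' E D₀` : the five inputs of the script are `L(𝔡-D)`, `L(𝔡-D')`, `L(2𝔡-E)`,
`L(2𝔡-E-D₀)`, `L(3𝔡-E-D₀)` (`D, D', D₀ ≥ 0` of degree `g`, `E ≥ 0` of degree `2δ-3g`, `δ = deg 𝔡`).

`tte_fib_script` : ALL the dimensions consumed by `tte_add` at such a fibre:
`dim S1 = 2δ-3g+1`, `dim S2 = 2δ+1`, `S3 = L(2𝔡-D-D'-E) ≠ 0`; if `S3` is a line: `dim S4 = 3δ+1-g`,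
`dim S5 = δ-2g+1`, `dim S6 = δ+1`, `dim S8 = 2δ+1`, `dim S7 = l(D+D'-D₀) ≥ 1`; if `S7` is a line too:
`dim S9 = 3δ+1-g`, `dim S10 = δ-2g+1` and `S10 = L(𝔡-D'')`, `D'' ≥ 0` of degree `g`,
`D'' ∼ D+D'-D₀`.
-/
import Mathlib
import Fermat.Agent.TT.Eng.Fib

set_option autoImplicit false
set_option linter.unusedSectionVars false
set_option linter.unusedVariables false

noncomputable section

namespace Fermat.Agent.TT

open Fermat.Agent.FF AlgebraicCurve Module Fermat.Agent.V.RR Matrix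

section FibScript

variable {ι : ℕ → Type} [∀ i, Fintype (ι i)] {K F : Type*} [Field K] [Field F] [Algebra K F]
  {g : ℕ} {c : ∀ i j k : ℕ, ι i → ι j → ι k → K}

/-- the inputs of the addition script on a function-field fibre -/
structure TteFibData (fib : FffmFib ι K F g c) (I : TteIn ι K) (δ : ℤ)
    (D D' E D₀ : Divisor K F) : Prop where
  hδ : Divisor.degree fib.dd = δ
  hD : 0 ≤ D
  hDdeg : Divisor.degree D = g
  hD' : 0 ≤ D'
  hD'deg : Divisor.degree D' = g
  hE : 0 ≤ E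
  hEdeg : Divisor.degree E = 2 * δ - 3 * g
  hD₀ : 0 ≤ D₀
  hD₀deg : Divisor.degree D₀ = g
  hUD : TteRepS fib 1 I.UD (fib.dd - D)
  hUD' : TteRepS fib 1 I.UD' (fib.dd - D')
  hUE : TteRepS fib 2 I.UE (2 • fib.dd - E)
  hUED : TteRepS fib 2 I.UED (2 • fib.dd - E - D₀)
  hUED3 : TteRepS fib 3 I.UED3 (3 • fib.dd - E - D₀)

variable {fib : FffmFib ι K F g c} {I : TteIn ι K} {δ : ℤ} {D D' E D₀ : Divisor K F}
  (h : TteFibData fib I δ D D' E D₀)

include h

theorem TteFibData.hδg : 5 * (g : ℤ) ≤ δ := h.hδ ▸ fib.hdd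

/-- `S1 = L(2𝔡 - D - D')` -/
theorem TteFibData.s1 : TteRepS fib 2 (tteS1 c I) (fib.dd - D + (fib.dd - D')) := by
  have := h.hδg
  exact tte_reps_mul fib rfl le_rfl le_rfl (by norm_num) h.hUD h.hUD'
    (by rw [map_sub, h.hδ, h.hDdeg]; linarith) (by rw [map_sub, h.hδ, h.hD'deg]; linarith)

/-- `S2 = L(4𝔡 - D - D' - E)` -/
theorem TteFibData.s2 :
    TteRepS fib 4 (tteS2 c I) (fib.dd - D + (fib.dd - D') + (2 • fib.dd - E)) := by
  have := h.hδg
  refine tte_reps_mul fib rfl (by norm_num) (by norm_num) (by norm_num) h.s1 h.hUE ?_ ?_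
  · simp only [map_add, map_sub, h.hδ, h.hDdeg, h.hD'deg]
    linarith
  · simp only [map_sub, map_nsmul, nsmul_eq_mul, Nat.cast_ofNat, h.hδ, h.hEdeg]
    linarith

/-- `S3 = L(2𝔡 - D - D' - E)` -/
theorem TteFibData.s3 : TteRepS fib 2 (tteS3 c I) (2 • fib.dd - D - D' - E) := by
  have := h.hδg
  have key := tte_reps_colon fib (i := 2) (j := 2) (k := 4) rfl (by norm_num) (by norm_num)
    (by norm_num) h.s2 (tte_reps_top fib (i := 2) (by norm_num) (by norm_num))
    (by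
      simp only [map_nsmul, nsmul_eq_mul, Nat.cast_ofNat, h.hδ]
      linarith)
  have heq : (2 • fib.dd) ⊓ (fib.dd - D + (fib.dd - D') + (2 • fib.dd - E) - 2 • fib.dd) =
      2 • fib.dd - D - D' - E := by
    refine fffm_inf_eq (by abel) ?_
    have h1 : 0 ≤ D + D' + E := add_nonneg (add_nonneg h.hD h.hD') h.hE
    have h2 : 2 • fib.dd - D - D' - E = 2 • fib.dd - (D + D' + E) := by abel
    rw [h2]
    exact sub_le_self _ h1
  rw [heq] at key
  exact key

theorem TteFibData.deg_x : Divisor.degree (2 • fib.dd - D - D' - E) = g := by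
  simp only [map_sub, map_nsmul, nsmul_eq_mul, Nat.cast_ofNat, h.hδ, h.hDdeg, h.hD'deg, h.hEdeg]
  ring

theorem TteFibData.finrank_s1 : finrank K (tteS1 c I) = (2 * δ - 3 * g + 1).toNat := by
  have := h.hδg
  have hdeg : Divisor.degree (fib.dd - D + (fib.dd - D')) = 2 * δ - 2 * g := by
    simp only [map_add, map_sub, h.hδ, h.hDdeg, h.hD'deg]
    ring
  have h1 := tte_reps_finrank fib (i := 2) (by norm_num) (by norm_num) h.s1
  have h2 := ffkm_finrank fib.RR (A := fib.dd - D + (fib.dd - D')) (by rw [hdeg]; linarith)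
  rw [hdeg] at h2
  omega

theorem TteFibData.finrank_s2 : finrank K (tteS2 c I) = (2 * δ + 1).toNat := by
  have := h.hδg
  have hdeg : Divisor.degree (fib.dd - D + (fib.dd - D') + (2 • fib.dd - E)) = 2 * δ + g := by
    simp only [map_add, map_sub, map_nsmul, nsmul_eq_mul, Nat.cast_ofNat, h.hδ, h.hDdeg,
      h.hD'deg, h.hEdeg]
    ring
  have h1 := tte_reps_finrank fib (i := 4) (by norm_num) (by norm_num) h.s2
  have h2 := ffkm_finrank fib.RR (A := fib.dd - D + (fib.dd - D') + (2 • fib.dd - E))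
    (by rw [hdeg]; linarith)
  rw [hdeg] at h2
  omega

theorem TteFibData.finrank_s3 :
    finrank K (tteS3 c I) = finrank K (riemannRochSpace (2 • fib.dd - D - D' - E)) :=
  tte_reps_finrank fib (i := 2) (by norm_num) (by norm_num) h.s3

theorem TteFibData.one_le_s3 : 1 ≤ finrank K (tteS3 c I) := by
  rw [h.finrank_s3]
  have := fib.RR.riemann_ineq (2 • fib.dd - D - D' - E)
  rw [h.deg_x] at this
  omega

/-! ### after the first section `s` -/

variable {s : F} {Ds : Divisor K F} (hs : s ≠ 0)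
  (hmem : s ∈ riemannRochSpace (2 • fib.dd - D - D' - E))
  (hDs : ∀ v : Place K F, Ds v = v.ord s)
  (h3 : finrank K (tteS3 c I) = 1)

include hs hmem hDs h3

theorem TteFibData.res : 0 ≤ 2 • fib.dd - D - D' - E + Ds ∧
    Divisor.degree (2 • fib.dd - D - D' - E + Ds) = g := by
  have := ffkm_residual fib.RR hs hmem hDs
  rw [h.deg_x] at this
  exact this

/-- `S4 = s·L(3𝔡) = L(3𝔡 - div s)` -/
theorem TteFibData.s4 : TteRepS fib 5 (tteS4 c I) (3 • fib.dd - Ds) := by
  have hX : finrank K (riemannRochSpace (2 • fib.dd - D - D' - E)) = 1 := by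
    rw [← h.finrank_s3]; exact h3
  exact tte_reps_mul_one fib (i := 2) (j := 3) (k := 5) rfl (by norm_num) (by norm_num)
    (by norm_num) h.s3 hs (ffkm_span_of_finrank_one fib.RR hX hs hmem)
    (tte_reps_top fib (i := 3) (by norm_num) (by norm_num)) hDs

theorem TteFibData.deg_a5 :
    Divisor.degree (fib.dd - (2 • fib.dd - D - D' - E + Ds)) = δ - g := by
  rw [map_sub, (h.res hs hmem hDs h3).2, h.hδ]

/-- `S5 = (S4 : S2) = L(𝔡 - R₁)`, `R₁ = 2𝔡 - D - D' - E + div s` -/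
theorem TteFibData.s5 :
    TteRepS fib 1 (tteS5 c I) (fib.dd - (2 • fib.dd - D - D' - E + Ds)) := by
  have := h.hδg
  have key := tte_reps_colon fib (i := 1) (j := 4) (k := 5) rfl (by norm_num) (by norm_num)
    (by norm_num) (h.s4 hs hmem hDs h3) h.s2
    (by
      simp only [map_add, map_sub, map_nsmul, nsmul_eq_mul, Nat.cast_ofNat, h.hδ, h.hDdeg,
        h.hD'deg, h.hEdeg]
      linarith)
  have heq : (1 • fib.dd) ⊓ (3 • fib.dd - Ds - (fib.dd - D + (fib.dd - D') + (2 • fib.dd - E))) =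
      fib.dd - (2 • fib.dd - D - D' - E + Ds) := by
    refine fffm_inf_eq (by abel) ?_
    rw [one_smul]
    exact sub_le_self _ (h.res hs hmem hDs h3).1
  rw [heq] at key
  exact key

/-- `S6 = L(𝔡 - R₁)·L(2𝔡 - E - D₀)` -/
theorem TteFibData.s6 : TteRepS fib 3 (tteS6 c I)
    (fib.dd - (2 • fib.dd - D - D' - E + Ds) + (2 • fib.dd - E - D₀)) := by
  have := h.hδg
  refine tte_reps_mul fib rfl (by norm_num) (by norm_num) (by norm_num) (h.s5 hs hmem hDs h3)
    h.hUED ?_ ?_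
  · rw [h.deg_a5 hs hmem hDs h3]
    linarith
  · simp only [map_sub, map_nsmul, nsmul_eq_mul, Nat.cast_ofNat, h.hδ, h.hEdeg, h.hD₀deg]
    linarith

/-- `S7 = (S6 : L(𝔡)) = L(2𝔡 - R₁ - E - D₀)` -/
theorem TteFibData.s7 : TteRepS fib 2 (tteS7 c I)
    (2 • fib.dd - (2 • fib.dd - D - D' - E + Ds) - E - D₀) := by
  have := h.hδg
  have key := tte_reps_colon fib (i := 2) (j := 1) (k := 3) rfl (by norm_num) (by norm_num)
    (by norm_num) (h.s6 hs hmem hDs h3) (tte_reps_top fib (i := 1) (by norm_num) (by norm_num))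
    (by
      rw [one_smul, h.hδ]
      linarith)
  have heq : (2 • fib.dd) ⊓ (fib.dd - (2 • fib.dd - D - D' - E + Ds) + (2 • fib.dd - E - D₀) -
      1 • fib.dd) = 2 • fib.dd - (2 • fib.dd - D - D' - E + Ds) - E - D₀ := by
    refine fffm_inf_eq (by rw [one_smul]; abel) ?_
    have h1 : 0 ≤ (2 • fib.dd - D - D' - E + Ds) + E + D₀ :=
      add_nonneg (add_nonneg (h.res hs hmem hDs h3).1 h.hE) h.hD₀
    have h2 : 2 • fib.dd - (2 • fib.dd - D - D' - E + Ds) - E - D₀ =
        2 • fib.dd - ((2 • fib.dd - D - D' - E + Ds) + E + D₀) := by abel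
    rw [h2]
    exact sub_le_self _ h1
  rw [heq] at key
  exact key

theorem TteFibData.deg_x2 :
    Divisor.degree (2 • fib.dd - (2 • fib.dd - D - D' - E + Ds) - E - D₀) = g := by
  rw [map_sub, map_sub, map_sub, (h.res hs hmem hDs h3).2]
  simp only [map_nsmul, nsmul_eq_mul, Nat.cast_ofNat, h.hδ, h.hEdeg, h.hD₀deg]
  ring

/-- `S8 = L(𝔡 - R₁)·L(3𝔡 - E - D₀)` -/
theorem TteFibData.s8 : TteRepS fib 4 (tteS8 c I)
    (fib.dd - (2 • fib.dd - D - D' - E + Ds) + (3 • fib.dd - E - D₀)) := by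
  have := h.hδg
  refine tte_reps_mul fib rfl (by norm_num) (by norm_num) (by norm_num) (h.s5 hs hmem hDs h3)
    h.hUED3 ?_ ?_
  · rw [h.deg_a5 hs hmem hDs h3]
    linarith
  · simp only [map_sub, map_nsmul, nsmul_eq_mul, Nat.cast_ofNat, h.hδ, h.hEdeg, h.hD₀deg]
    linarith

theorem TteFibData.finrank_s4 : finrank K (tteS4 c I) = (3 * δ + 1 - g).toNat := by
  have := h.hδg
  have h1 := tte_reps_finrank fib (i := 5) (by norm_num) (by norm_num) (h.s4 hs hmem hDs h3)
  rw [fffm_finrank_sub_div hs hDs] at h1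
  have hdeg : Divisor.degree (3 • fib.dd) = 3 * δ := by
    simp only [map_nsmul, nsmul_eq_mul, Nat.cast_ofNat, h.hδ]
  have h2 := ffkm_finrank fib.RR (A := 3 • fib.dd) (by rw [hdeg]; linarith)
  rw [hdeg] at h2
  omega

theorem TteFibData.finrank_s5 : finrank K (tteS5 c I) = (δ - 2 * g + 1).toNat := by
  have := h.hδg
  have h1 := tte_reps_finrank fib (i := 1) (by norm_num) (by norm_num) (h.s5 hs hmem hDs h3)
  have h2 := ffkm_finrank fib.RR (A := fib.dd - (2 • fib.dd - D - D' - E + Ds))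
    (by rw [h.deg_a5 hs hmem hDs h3]; linarith)
  rw [h.deg_a5 hs hmem hDs h3] at h2
  omega

theorem TteFibData.finrank_s6 : finrank K (tteS6 c I) = (δ + 1).toNat := by
  have := h.hδg
  have hdeg : Divisor.degree
      (fib.dd - (2 • fib.dd - D - D' - E + Ds) + (2 • fib.dd - E - D₀)) = δ + g := by
    rw [map_add, h.deg_a5 hs hmem hDs h3]
    simp only [map_sub, map_nsmul, nsmul_eq_mul, Nat.cast_ofNat, h.hδ, h.hEdeg, h.hD₀deg]
    ring
  have h1 := tte_reps_finrank fib (i := 3) (by norm_num) (by norm_num) (h.s6 hs hmem hDs h3)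
  have h2 := ffkm_finrank fib.RR
    (A := fib.dd - (2 • fib.dd - D - D' - E + Ds) + (2 • fib.dd - E - D₀))
    (by rw [hdeg]; linarith)
  rw [hdeg] at h2
  omega

theorem TteFibData.finrank_s7 :
    finrank K (tteS7 c I) = finrank K (riemannRochSpace (D + D' - D₀)) := by
  have h1 := tte_reps_finrank fib (i := 2) (by norm_num) (by norm_num) (h.s7 hs hmem hDs h3)
  have heq : 2 • fib.dd - (2 • fib.dd - D - D' - E + Ds) - E - D₀ = D + D' - D₀ - Ds := by abel
  rw [heq, fffm_finrank_sub_div hs hDs] at h1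
  exact h1

theorem TteFibData.one_le_s7 : 1 ≤ finrank K (tteS7 c I) := by
  rw [tte_reps_finrank fib (i := 2) (by norm_num) (by norm_num) (h.s7 hs hmem hDs h3)]
  have := fib.RR.riemann_ineq (2 • fib.dd - (2 • fib.dd - D - D' - E + Ds) - E - D₀)
  rw [h.deg_x2 hs hmem hDs h3] at this
  omega

theorem TteFibData.finrank_s8 : finrank K (tteS8 c I) = (2 * δ + 1).toNat := by
  have := h.hδg
  have hdeg : Divisor.degree
      (fib.dd - (2 • fib.dd - D - D' - E + Ds) + (3 • fib.dd - E - D₀)) = 2 * δ + g := by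
    rw [map_add, h.deg_a5 hs hmem hDs h3]
    simp only [map_sub, map_nsmul, nsmul_eq_mul, Nat.cast_ofNat, h.hδ, h.hEdeg, h.hD₀deg]
    ring
  have h1 := tte_reps_finrank fib (i := 4) (by norm_num) (by norm_num) (h.s8 hs hmem hDs h3)
  have h2 := ffkm_finrank fib.RR
    (A := fib.dd - (2 • fib.dd - D - D' - E + Ds) + (3 • fib.dd - E - D₀))
    (by rw [hdeg]; linarith)
  rw [hdeg] at h2
  omega

/-! ### after the second section `s'` -/

variable {s' : F} {Ds' : Divisor K F} (hs' : s' ≠ 0)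
  (hmem' : s' ∈ riemannRochSpace (2 • fib.dd - (2 • fib.dd - D - D' - E + Ds) - E - D₀))
  (hDs' : ∀ v : Place K F, Ds' v = v.ord s')
  (h7 : finrank K (tteS7 c I) = 1)

include hs' hmem' hDs' h7

theorem TteFibData.res' :
    0 ≤ 2 • fib.dd - (2 • fib.dd - D - D' - E + Ds) - E - D₀ + Ds' ∧
    Divisor.degree (2 • fib.dd - (2 • fib.dd - D - D' - E + Ds) - E - D₀ + Ds') = g := by
  have := ffkm_residual fib.RR hs' hmem' hDs'
  rw [h.deg_x2 hs hmem hDs h3] at this
  exact this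

/-- `S9 = s'·L(3𝔡) = L(3𝔡 - div s')` -/
theorem TteFibData.s9 : TteRepS fib 5 (tteS9 c I) (3 • fib.dd - Ds') := by
  have hX : finrank K (riemannRochSpace
      (2 • fib.dd - (2 • fib.dd - D - D' - E + Ds) - E - D₀)) = 1 := by
    rw [← tte_reps_finrank fib (i := 2) (by norm_num) (by norm_num) (h.s7 hs hmem hDs h3)]
    exact h7
  exact tte_reps_mul_one fib (i := 2) (j := 3) (k := 5) rfl (by norm_num) (by norm_num)
    (by norm_num) (h.s7 hs hmem hDs h3) hs' (ffkm_span_of_finrank_one fib.RR hX hs' hmem')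
    (tte_reps_top fib (i := 3) (by norm_num) (by norm_num)) hDs'

theorem TteFibData.deg_a10 : Divisor.degree (fib.dd -
    (2 • fib.dd - (2 • fib.dd - D - D' - E + Ds) - E - D₀ + Ds')) = δ - g := by
  rw [map_sub, (h.res' hs hmem hDs h3 hs' hmem' hDs' h7).2, h.hδ]

/-- `S10 = (S9 : S8) = L(𝔡 - D'')` -/
theorem TteFibData.s10 : TteRepS fib 1 (tteS10 c I)
    (fib.dd - (2 • fib.dd - (2 • fib.dd - D - D' - E + Ds) - E - D₀ + Ds')) := by
  have := h.hδg
  have key := tte_reps_colon fib (i := 1) (j := 4) (k := 5) rfl (by norm_num) (by norm_num)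
    (by norm_num) (h.s9 hs hmem hDs h3 hs' hmem' hDs' h7) (h.s8 hs hmem hDs h3)
    (by
      rw [map_add, h.deg_a5 hs hmem hDs h3]
      simp only [map_sub, map_nsmul, nsmul_eq_mul, Nat.cast_ofNat, h.hδ, h.hEdeg, h.hD₀deg]
      linarith)
  have heq : (1 • fib.dd) ⊓ (3 • fib.dd - Ds' -
      (fib.dd - (2 • fib.dd - D - D' - E + Ds) + (3 • fib.dd - E - D₀))) =
      fib.dd - (2 • fib.dd - (2 • fib.dd - D - D' - E + Ds) - E - D₀ + Ds') := by
    refine fffm_inf_eq (by abel) ?_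
    rw [one_smul]
    exact sub_le_self _ (h.res' hs hmem hDs h3 hs' hmem' hDs' h7).1
  rw [heq] at key
  exact key

theorem TteFibData.finrank_s9 : finrank K (tteS9 c I) = (3 * δ + 1 - g).toNat := by
  have := h.hδg
  have h1 := tte_reps_finrank fib (i := 5) (by norm_num) (by norm_num)
    (h.s9 hs hmem hDs h3 hs' hmem' hDs' h7)
  rw [fffm_finrank_sub_div hs' hDs'] at h1
  have hdeg : Divisor.degree (3 • fib.dd) = 3 * δ := by
    simp only [map_nsmul, nsmul_eq_mul, Nat.cast_ofNat, h.hδ]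
  have h2 := ffkm_finrank fib.RR (A := 3 • fib.dd) (by rw [hdeg]; linarith)
  rw [hdeg] at h2
  omega

theorem TteFibData.finrank_s10 : finrank K (tteS10 c I) = (δ - 2 * g + 1).toNat := by
  have := h.hδg
  have h1 := tte_reps_finrank fib (i := 1) (by norm_num) (by norm_num)
    (h.s10 hs hmem hDs h3 hs' hmem' hDs' h7)
  have h2 := ffkm_finrank fib.RR
    (A := fib.dd - (2 • fib.dd - (2 • fib.dd - D - D' - E + Ds) - E - D₀ + Ds'))
    (by rw [h.deg_a10 hs hmem hDs h3 hs' hmem' hDs' h7]; linarith)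
  rw [h.deg_a10 hs hmem hDs h3 hs' hmem' hDs' h7] at h2
  omega

omit hs hmem hDs h3 hs' hmem' hDs' h7

/-- **the addition script on a function-field fibre**: all dimensions, and the output. -/
theorem tte_fib_script :
    finrank K (tteS1 c I) = (2 * δ - 3 * g + 1).toNat ∧
    finrank K (tteS2 c I) = (2 * δ + 1).toNat ∧
    finrank K (tteS3 c I) = finrank K (riemannRochSpace (2 • fib.dd - D - D' - E)) ∧
    1 ≤ finrank K (tteS3 c I) ∧
    (finrank K (tteS3 c I) = 1 →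
      finrank K (tteS4 c I) = (3 * δ + 1 - g).toNat ∧
      finrank K (tteS5 c I) = (δ - 2 * g + 1).toNat ∧
      finrank K (tteS6 c I) = (δ + 1).toNat ∧
      finrank K (tteS7 c I) = finrank K (riemannRochSpace (D + D' - D₀)) ∧
      1 ≤ finrank K (tteS7 c I) ∧
      finrank K (tteS8 c I) = (2 * δ + 1).toNat ∧
      (finrank K (tteS7 c I) = 1 →
        finrank K (tteS9 c I) = (3 * δ + 1 - g).toNat ∧
        finrank K (tteS10 c I) = (δ - 2 * g + 1).toNat ∧
        ∃ D'' : Divisor K F, 0 ≤ D'' ∧ Divisor.degree D'' = g ∧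
          (D'' - (D + D' - D₀)).IsPrincipal ∧ TteRepS fib 1 (tteS10 c I) (fib.dd - D''))) := by
  refine ⟨h.finrank_s1, h.finrank_s2, h.finrank_s3, h.one_le_s3, fun h3 => ?_⟩
  have hX : finrank K (riemannRochSpace (2 • fib.dd - D - D' - E)) = 1 := by
    rw [← h.finrank_s3]; exact h3
  obtain ⟨s, Ds, hs, hmem, hDs, -⟩ := fffm_exists_section fib.RR hX
  refine ⟨h.finrank_s4 hs hmem hDs h3, h.finrank_s5 hs hmem hDs h3, h.finrank_s6 hs hmem hDs h3,
    h.finrank_s7 hs hmem hDs h3, h.one_le_s7 hs hmem hDs h3, h.finrank_s8 hs hmem hDs h3,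
    fun h7 => ?_⟩
  have hX2 : finrank K (riemannRochSpace
      (2 • fib.dd - (2 • fib.dd - D - D' - E + Ds) - E - D₀)) = 1 := by
    rw [← tte_reps_finrank fib (i := 2) (by norm_num) (by norm_num) (h.s7 hs hmem hDs h3)]
    exact h7
  obtain ⟨s', Ds', hs', hmem', hDs', -⟩ := fffm_exists_section fib.RR hX2
  refine ⟨h.finrank_s9 hs hmem hDs h3 hs' hmem' hDs' h7,
    h.finrank_s10 hs hmem hDs h3 hs' hmem' hDs' h7,
    _, (h.res' hs hmem hDs h3 hs' hmem' hDs' h7).1, (h.res' hs hmem hDs h3 hs' hmem' hDs' h7).2,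
    ?_, h.s10 hs hmem hDs h3 hs' hmem' hDs' h7⟩
  have hsub : 2 • fib.dd - (2 • fib.dd - D - D' - E + Ds) - E - D₀ + Ds' - (D + D' - D₀) =
      Ds' - Ds := by abel
  rw [hsub]
  refine ⟨s' * s⁻¹, mul_ne_zero hs' (inv_ne_zero hs), fun v => ?_⟩
  rw [Finsupp.sub_apply, hDs' v, hDs v, v.ord_mul hs' (inv_ne_zero hs), v.ord_inv]
  ring

end FibScript

end Fermat.Agent.TT
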