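/-
Program TT (S33), engine split, part 6 (helper13, prefix `tte`): `tte_add` for TWO kinds of points -
one closed point `cl : R →+* k` (a local homomorphism) whose fibre is ABSTRACT (any curve, e.g. the
nodal special fibre: only the ten dimensions `TteClosed` of the script are consumed), and a jointly
injective family of generic points `ev x : R →+* K` with function-field fibres `F / K`.

* `tteTabsOf cR φ`, `tteInOf φ GD GD' GE GED GED3` : the tables / the five inputs at a ring hom `φ`;
* `TteClosed c I g δ` : the ten dimensions of the script (what the closed fibre has to deliver);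
* `tte_closed_of_fib` : a function-field fibre with (G-i) `l(2𝔡-D-D'-E) = 1`, (G-ii) `l(D+D'-D₀) = 1`
  satisfies `TteClosed` (so the smooth case of Program FF is a special case);
* `tte_add_two` : the idempotent `P` over `R` with closed fibre `S10` and generic fibres `L(𝔡 - D'')`,
  `D'' ≥ 0` of degree `g`, `D'' ∼ D x + D' x - D₀ x`.
-/
import Mathlib
import Fermat.Agent.FF.Fam.Two
import Fermat.Agent.TT.Eng.FibScript

set_option autoImplicit false
set_option linter.unusedSectionVars false
set_option linter.unusedVariables false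

noncomputable section

namespace Fermat.Agent.TT

open Fermat.Agent.FF AlgebraicCurve Module Fermat.Agent.V.RR Matrix

universe u v w

section Defs

variable {ι : ℕ → Type} [∀ i, Fintype (ι i)] {R : Type*} [CommRing R]
  {K : Type*} [Field K]

/-- the tables at a ring homomorphism -/
def tteTabsOf (cR : ∀ i j k : ℕ, ι i → ι j → ι k → R) (φ : R →+* K) :
    ∀ i j k : ℕ, ι i → ι j → ι k → K :=
  fun i j k p q s => φ (cR i j k p q s)

/-- the five inputs at a ring homomorphism -/
def tteInOf (φ : R →+* K) {σ σ' σE σ2 σ3 : Type*} [Fintype σ] [Fintype σ'] [Fintype σE]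
    [Fintype σ2] [Fintype σ3]
    (GD : Matrix (ι 1) σ R) (GD' : Matrix (ι 1) σ' R) (GE : Matrix (ι 2) σE R)
    (GED : Matrix (ι 2) σ2 R) (GED3 : Matrix (ι 3) σ3 R) : TteIn ι K where
  UD := LinearMap.range (GD.map φ).mulVecLin
  UD' := LinearMap.range (GD'.map φ).mulVecLin
  UE := LinearMap.range (GE.map φ).mulVecLin
  UED := LinearMap.range (GED.map φ).mulVecLin
  UED3 := LinearMap.range (GED3.map φ).mulVecLin

/-- **the ten dimensions of the addition script**: all that the closed fibre has to deliver. -/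
structure TteClosed (c : ∀ i j k : ℕ, ι i → ι j → ι k → K) (I : TteIn ι K) (g : ℕ) (δ : ℤ) :
    Prop where
  h1 : finrank K (tteS1 c I) = (2 * δ - 3 * g + 1).toNat
  h2 : finrank K (tteS2 c I) = (2 * δ + 1).toNat
  h3 : finrank K (tteS3 c I) = 1
  h4 : finrank K (tteS4 c I) = (3 * δ + 1 - g).toNat
  h5 : finrank K (tteS5 c I) = (δ - 2 * g + 1).toNat
  h6 : finrank K (tteS6 c I) = (δ + 1).toNat
  h7 : finrank K (tteS7 c I) = 1
  h8 : finrank K (tteS8 c I) = (2 * δ + 1).toNat
  h9 : finrank K (tteS9 c I) = (3 * δ + 1 - g).toNat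
  h10 : finrank K (tteS10 c I) = (δ - 2 * g + 1).toNat

end Defs

section Smooth

variable {ι : ℕ → Type} [∀ i, Fintype (ι i)] {K F : Type*} [Field K] [Field F] [Algebra K F]
  {g : ℕ} {c : ∀ i j k : ℕ, ι i → ι j → ι k → K} {fib : FffmFib ι K F g c} {I : TteIn ι K}
  {δ : ℤ} {D D' E D₀ : Divisor K F}

/-- a function-field fibre with (G-i), (G-ii) delivers the ten dimensions -/
theorem tte_closed_of_fib (h : TteFibData fib I δ D D' E D₀)
    (hGi : finrank K (riemannRochSpace (2 • fib.dd - D - D' - E)) = 1)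
    (hGii : finrank K (riemannRochSpace (D + D' - D₀)) = 1) : TteClosed c I g δ := by
  obtain ⟨h1, h2, h3e, -, hrest⟩ := tte_fib_script h
  have h3 : finrank K (tteS3 c I) = 1 := h3e.trans hGi
  obtain ⟨h4, h5, h6, h7e, -, h8, hrest'⟩ := hrest h3
  have h7 : finrank K (tteS7 c I) = 1 := h7e.trans hGii
  obtain ⟨h9, h10, -⟩ := hrest' h7
  exact ⟨h1, h2, h3, h4, h5, h6, h7, h8, h9, h10⟩

end Smooth

section Two

variable {ι : ℕ → Type} [∀ i, Fintype (ι i)] [∀ i, DecidableEq (ι i)]
  {R : Type*} [CommRing R] (cR : ∀ i j k : ℕ, ι i → ι j → ι k → R)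
  {k K : Type u} [Field k] [Field K] {F : Type v} [Field F] [Algebra K F] {X : Type w}
  (cl : R →+* k) [IsLocalHom cl] (ev : X → R →+* K)
  (hev : ∀ b : R, (∀ x, ev x b = 0) → b = 0)
  {g : ℕ} (fibK : ∀ x, FffmFib ι K F g (tteTabsOf cR (ev x)))

include hev in
/-- **Khuri-Makdisi addition in a family, abstract closed fibre.** -/
theorem tte_add_two (δ : ℤ) (D D' E D0 : X → Divisor K F)
    {σ σ' σE σ2 σ3 : Type*} [Fintype σ] [Fintype σ'] [Fintype σE] [Fintype σ2] [Fintype σ3]
    [DecidableEq σ] [DecidableEq σ'] [DecidableEq σE] [DecidableEq σ2] [DecidableEq σ3]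
    (GD : Matrix (ι 1) σ R) (GD' : Matrix (ι 1) σ' R) (GE : Matrix (ι 2) σE R)
    (GED : Matrix (ι 2) σ2 R) (GED3 : Matrix (ι 3) σ3 R)
    (hgen : ∀ x, TteFibData (fibK x) (tteInOf (ev x) GD GD' GE GED GED3) δ
      (D x) (D' x) (E x) (D0 x))
    (hcl : TteClosed (tteTabsOf cR cl) (tteInOf cl GD GD' GE GED GED3) g δ) :
    ∃ P : Matrix (ι 1) (ι 1) R, P * P = P ∧
      LinearMap.range (P.map cl).mulVecLin =
        tteS10 (tteTabsOf cR cl) (tteInOf cl GD GD' GE GED GED3) ∧
      ∀ x, ∃ D'' : Divisor K F, 0 ≤ D'' ∧ Divisor.degree D'' = g ∧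
        (D'' - (D x + D' x - D0 x)).IsPrincipal ∧
        FffmRep (fibK x) 1 (P.map (ev x)) ((fibK x).dd - D'') := by
  have hpt : ∀ b : R, (∀ o : Option X, fffmPt cl ev o b = 0) → b = 0 :=
    fun b hb => hev b fun x => hb (some x)
  have hloc : IsLocalHom (fffmPt cl ev (none : Option X)) := ‹IsLocalHom cl›
  have hS := fun x => tte_fib_script (hgen x)
  obtain ⟨P, hP, hfib⟩ := tte_add cR (fffmPt cl ev) hpt (none : Option X) GD GD' GE GED GED3
    (2 * δ - 3 * g + 1).toNat (2 * δ + 1).toNat (3 * δ + 1 - g).toNat (δ - 2 * g + 1).toNat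
    (δ + 1).toNat (2 * δ + 1).toNat (3 * δ + 1 - g).toNat (δ - 2 * g + 1).toNat
    (fun o => match o with | none => hcl.h1 | some x => (hS x).1)
    (fun o => match o with | none => hcl.h2 | some x => (hS x).2.1)
    hcl.h3
    (fun o => match o with | none => hcl.h3.ge | some x => (hS x).2.2.2.1)
    (fun o => match o with
      | none => fun _ => hcl.h4
      | some x => fun h3 => ((hS x).2.2.2.2 h3).1)
    hcl.h5
    (fun o => match o with
      | none => fun _ => hcl.h5.ge
      | some x => fun h3 => ((hS x).2.2.2.2 h3).2.1.ge)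
    (fun o => match o with
      | none => fun _ => hcl.h6
      | some x => fun h3 => ((hS x).2.2.2.2 h3).2.2.1)
    hcl.h7
    (fun o => match o with
      | none => fun _ => hcl.h7.ge
      | some x => fun h3 => ((hS x).2.2.2.2 h3).2.2.2.2.1)
    (fun o => match o with
      | none => fun _ => hcl.h8
      | some x => fun h3 => ((hS x).2.2.2.2 h3).2.2.2.2.2.1)
    (fun o => match o with
      | none => fun _ _ => hcl.h9
      | some x => fun h3 h7 => (((hS x).2.2.2.2 h3).2.2.2.2.2.2 h7).1)
    hcl.h10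
    (fun o => match o with
      | none => fun _ _ => hcl.h10.ge
      | some x => fun h3 h7 => (((hS x).2.2.2.2 h3).2.2.2.2.2.2 h7).2.1.ge)
  refine ⟨P, hP, (hfib none).1, fun x => ?_⟩
  obtain ⟨hF, h3, h7⟩ := hfib (some x)
  obtain ⟨D'', h0, hdeg, hprin, hrep⟩ := (((hS x).2.2.2.2 h3).2.2.2.2.2.2 h7).2.2
  refine ⟨D'', h0, hdeg, hprin, ?_⟩
  rw [← tteRepS_range]
  have hF' : LinearMap.range (P.map (ev x)).mulVecLin =
      tteS10 (tteTabsOf cR (ev x)) (tteInOf (ev x) GD GD' GE GED GED3) := hF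
  rw [hF']
  exact hrep

end Two

end Fermat.Agent.TT
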