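/-
Program TT (S33), engine split, part 8 (helper13, prefix `tte`): THE TWO FIBRES OF THE ENGINE FROM THE
ABSTRACT TWO-VALUATION INTEGRAL LAYER (the twin of `FF/Fam/Model.lean`).

From helper26's `h : TtbRed A O red` (TT/B2/Lattice.lean) with values in `F₁ × F₂` (the two components
of the special fibre), Riemann-Roch on the generic fibre and on both components, the nodes
`ν₁ s ~ ν₂ s`, the level divisors `𝔡` and `𝔡̃ = (dd₁, dd₂)`, and for every level `i = 1..5` a
`G`-fixed integral basis of `L(i𝔡)` whose reduction is a basis of `L̃(i𝔡̃)` (`TteBasis` = the output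
of helper26's `ttb_basis`):
* index types `Fin (n i)`, the bases `b i : Fin (n i) → O`;
* ONE multiplication table `cW` over any ring `W` through which the fixed ring `ttbFix A ρ` factors;
* the generic fibre `fibK : FffmFib` (`dd = 𝔡`, basis `b`, table `cW` mapped to `K`) and helper25's
  nodal closed fibre `fibk : TtnkFib` (basis `red ∘ b`, table = the residue of `cW`), with the literal
  tables of `tte_idem`.
-/
import Mathlib
import Fermat.Agent.FF.IntRR
import Fermat.Agent.FF.Fam.Coord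
import Fermat.Agent.TT.B2.Lattice
import Fermat.Agent.TT.Nodal.Fib

set_option autoImplicit false
set_option linter.unusedSectionVars false
set_option linter.unusedVariables false

noncomputable section

namespace Fermat.Agent.TT

open Fermat.Agent.FF AlgebraicCurve Module Fermat.Agent.V.RR IsLocalRing

section Model

variable {K : Type*} [Field K] {A : ValuationSubring K}
variable {F : Type*} [Field F] [Algebra K F]
variable {Rk : Type*} [CommRing Rk] [Algebra (ResidueField A) Rk]
variable {O : Subring F} {G : Type*} [Group G]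

/-- a `G`-fixed integral basis of `V` whose reduction is a basis of `Vk` (the output of
`ttb_basis`) -/
def TteBasis (red : O →+* Rk) (ρ : G →* SemilinearAut K F) (V : Submodule K F)
    (Vk : Submodule (ResidueField A) Rk) {n : ℕ} (b : Fin n → O) : Prop :=
  (∀ p, ((b p : O) : F) ∈ V) ∧
  (∀ p (σ : G), ρ σ • ((b p : O) : F) = b p) ∧
  LinearIndependent (ResidueField A) (fun p => red (b p)) ∧
  Submodule.span (ResidueField A) (Set.range fun p => red (b p)) = Vk ∧
  LinearIndependent K (fun p => ((b p : O) : F)) ∧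
  Submodule.span K (Set.range fun p => ((b p : O) : F)) = V

variable {F₁ F₂ : Type*} [Field F₁] [Field F₂] [Algebra (ResidueField A) F₁]
  [Algebra (ResidueField A) F₂] {red : O →+* F₁ × F₂} {ρ : G →* SemilinearAut K F}
  {g g₁ g₂ : ℕ}

/-- **the two fibres of the engine from the two-valuation integral layer** -/
theorem tte_model (h : TtbRed A O red) (RR : V27RR K F g) (hdeg : ∀ P : Place K F, P.deg = 1)
    [Infinite K] (RR₁ : V27RR (ResidueField A) F₁ g₁) (RR₂ : V27RR (ResidueField A) F₂ g₂)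
    [Infinite (ResidueField A)]
    (hdeg₁ : ∀ v : Place (ResidueField A) F₁, v.deg = 1)
    (hdeg₂ : ∀ v : Place (ResidueField A) F₂, v.deg = 1)
    {S : Type*} [Fintype S] (ν₁ : S → Place (ResidueField A) F₁)
    (ν₂ : S → Place (ResidueField A) F₂) (hν₁ : Function.Injective ν₁)
    (hν₂ : Function.Injective ν₂)
    (dd : Divisor K F) (hdd : 5 * (g : ℤ) ≤ Divisor.degree dd)
    (dd₁ : Divisor (ResidueField A) F₁) (dd₂ : Divisor (ResidueField A) F₂)
    (hdd₁ : ∀ s, dd₁ (ν₁ s) = 0) (hdd₂ : ∀ s, dd₂ (ν₂ s) = 0)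
    (hbas : ∀ i : ℕ, 1 ≤ i → i ≤ 5 → ∃ (n : ℕ) (b : Fin n → O),
      TteBasis red ρ (riemannRochSpace (i • dd)) (ttnkL ν₁ ν₂ (i • dd₁) (i • dd₂)) b)
    {W : Type*} [CommRing W] [Algebra W ↥A]
    (hW : ∀ a : K, a ∈ ttbFix A ρ → ∃ w : W, ((algebraMap W ↥A w : ↥A) : K) = a) :
    ∃ (n : ℕ → ℕ) (b : ∀ i, Fin (n i) → O)
      (cW : ∀ i j k : ℕ, Fin (n i) → Fin (n j) → Fin (n k) → W)
      (fibK : FffmFib (fun i => Fin (n i)) K F g
        (fun i j k p q s => ((algebraMap W ↥A (cW i j k p q s) : ↥A) : K)))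
      (fibk : TtnkFib (fun i => Fin (n i)) (ResidueField A) F₁ F₂ g₁ g₂ S
        (fun i j k p q s => residue ↥A (algebraMap W ↥A (cW i j k p q s)))),
      fibK.dd = dd ∧ fibk.dd₁ = dd₁ ∧ fibk.dd₂ = dd₂ ∧ fibk.ν₁ = ν₁ ∧ fibk.ν₂ = ν₂ ∧
      (∀ i, fibK.b i = fun p => ((b i p : O) : F)) ∧
      (∀ i, fibk.coord.b i = fun p => red (b i p)) ∧
      ∀ i, 1 ≤ i → i ≤ 5 →
        TteBasis red ρ (riemannRochSpace (i • dd)) (ttnkL ν₁ ν₂ (i • dd₁) (i • dd₂)) (b i) := by
  classical
  -- the bases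
  have hbex : ∀ i : ℕ, ∃ (n : ℕ) (b : Fin n → O), 1 ≤ i → i ≤ 5 →
      TteBasis red ρ (riemannRochSpace (i • dd)) (ttnkL ν₁ ν₂ (i • dd₁) (i • dd₂)) b := by
    intro i
    by_cases hi : 1 ≤ i ∧ i ≤ 5
    · obtain ⟨n, b, hb⟩ := hbas i hi.1 hi.2
      exact ⟨n, b, fun _ _ => hb⟩
    · exact ⟨0, fun _ => 0, fun h1 h5 => absurd ⟨h1, h5⟩ hi⟩
  choose n b hb using hbex
  -- the table
  have hcex : ∀ (i j k : ℕ) (p : Fin (n i)) (q : Fin (n j)),
      ∃ c : Fin (n k) → W, k = i + j → 1 ≤ i → 1 ≤ j → k ≤ 5 →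
        ((b i p : O) : F) * ((b j q : O) : F) =
          ∑ s, ((algebraMap W ↥A (c s) : ↥A) : K) • ((b k s : O) : F) := by
    intro i j k p q
    by_cases hh : k = i + j ∧ 1 ≤ i ∧ 1 ≤ j ∧ k ≤ 5
    · obtain ⟨hk, hi, hj, h5⟩ := hh
      have hk1 : 1 ≤ k := by omega
      obtain ⟨hi1, hi2, -, -, -, -⟩ := hb i hi (by omega)
      obtain ⟨hj1, hj2, -, -, -, -⟩ := hb j hj (by omega)
      obtain ⟨-, hk2, hk3, -, -, hk6⟩ := hb k hk1 h5
      have hsum : i • dd + j • dd = k • dd := by
        rw [← add_smul, hk]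
      have hmul : ((b i p : O) : F) * ((b j q : O) : F) ∈
          Submodule.span K (Set.range fun s => ((b k s : O) : F)) := by
        rw [hk6, ← hsum]
        exact ffir_mul_mem_rrSpace (hi1 p) (hj1 q)
      obtain ⟨c, hc⟩ := ttb_struct_const h (b k) hk3 hk2 (b i p) (b j q) hmul (hi2 p) (hj2 q)
      choose w hw using fun s => hW _ (c s).2
      refine ⟨w, fun _ _ _ _ => ?_⟩
      rw [hc]
      exact Finset.sum_congr rfl fun s _ => by rw [hw s]
    · exact ⟨fun _ => 0, fun h1 h2 h3 h4 => absurd ⟨h1, h2, h3, h4⟩ hh⟩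
  choose cW hcW using hcex
  refine ⟨n, b, cW,
    { RR := RR
      inf := inferInstance
      hdeg1 := hdeg
      dd := dd
      hdd := hdd
      b := fun i p => ((b i p : O) : F)
      li := fun i h1 h5 => (hb i h1 h5).2.2.2.2.1
      span := fun i h1 h5 => (hb i h1 h5).2.2.2.2.2
      mul := fun i j k hk hi hj h5 p q => hcW i j k p q hk hi hj h5 },
    { RR₁ := RR₁
      RR₂ := RR₂
      inf := inferInstance
      hdeg1₁ := hdeg₁
      hdeg1₂ := hdeg₂
      ν₁ := ν₁
      ν₂ := ν₂
      hν₁ := hν₁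
      hν₂ := hν₂
      dd₁ := dd₁
      dd₂ := dd₂
      hdd₁ := hdd₁
      hdd₂ := hdd₂
      coord :=
        { lvl := fun i => ttnkL ν₁ ν₂ (i • dd₁) (i • dd₂)
          b := fun i p => red (b i p)
          li := fun i h1 h5 => (hb i h1 h5).2.2.1
          span := fun i h1 h5 => (hb i h1 h5).2.2.2.1
          mul := fun i j k hk hi hj h5 p q => by
            have h1 := hcW i j k p q hk hi hj h5
            have hmem : ∑ s, (((algebraMap W ↥A (cW i j k p q s) : ↥A) : K)) •
                ((b k s : O) : F) ∈ O := by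
              rw [← h1]
              exact O.mul_mem (b i p).2 (b j q).2
            have h2 := ttb_coord_red h (b k) (fun s => algebraMap W ↥A (cW i j k p q s)) hmem
            rw [← map_mul, ← h2]
            congr 1
            exact Subtype.ext h1 }
      hlvl := fun i => rfl },
    rfl, rfl, rfl, rfl, rfl, fun i => rfl, fun i => rfl, fun i h1 h5 => hb i h1 h5⟩

end Model

end Fermat.Agent.TT
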